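/-
P-MW row 683 (MW-DUAL): Pluecker duality (Jacobi's complementary minor theorem) and its
height form.  Mathlib only (plus the statement definitions of `H92.MW.CoreInterfaces`).

Main results:
* `Fermat.Agent.H33.MW.det_mul_det_toBlocks₂₂_of_mul_eq_one` -- Jacobi's identity for a
  block matrix and a right inverse,
* `Fermat.Agent.H33.MW.pluckerDuality : H92.MW.PluckerDualityStatement`,
* `Fermat.Agent.H33.MW.pluckerDualityHeight : H92.MW.PluckerDualityHeightStatement`.
-/
import Fermat.Agent.H92.MW.CoreInterfaces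

set_option autoImplicit false

namespace Fermat.Agent.H33.MW

open Matrix Fermat.Agent.H92.MW

section Jacobi

/-- A matrix over a field with linearly independent rows has a right inverse. -/
theorem exists_right_inverse_of_linearIndependent_row {K : Type*} [Field K] {l n : ℕ}
    (A : Matrix (Fin l) (Fin n) K) (h : LinearIndependent K A.row) :
    ∃ B : Matrix (Fin n) (Fin l) K, A * B = 1 := by
  rw [← Matrix.mulVec_surjective_iff_exists_right_inverse]
  have hr : A.rank = Fintype.card (Fin l) := h.rank_matrix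
  have hrange : LinearMap.range A.mulVecLin = ⊤ := by
    apply Submodule.eq_top_of_finrank_eq
    rw [Module.finrank_fintype_fun_eq_card]
    exact hr
  intro y
  have hy : y ∈ LinearMap.range A.mulVecLin := by rw [hrange]; trivial
  obtain ⟨x, hx⟩ := hy
  exact ⟨x, by simpa using hx⟩

/-- **Jacobi's complementary minor identity**, in block form: if `P * Q = 1` for square block
matrices then `det P * det Q₂₂ = det P₁₁`. -/
theorem det_mul_det_toBlocks₂₂_of_mul_eq_one {m₁ m₂ R : Type*} [Fintype m₁] [Fintype m₂]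
    [DecidableEq m₁] [DecidableEq m₂] [CommRing R]
    (P Q : Matrix (m₁ ⊕ m₂) (m₁ ⊕ m₂) R) (h : P * Q = 1) :
    P.det * Q.toBlocks₂₂.det = P.toBlocks₁₁.det := by
  have hP : P = fromBlocks P.toBlocks₁₁ P.toBlocks₁₂ P.toBlocks₂₁ P.toBlocks₂₂ :=
    (Matrix.fromBlocks_toBlocks P).symm
  have hQ : Q = fromBlocks Q.toBlocks₁₁ Q.toBlocks₁₂ Q.toBlocks₂₁ Q.toBlocks₂₂ :=
    (Matrix.fromBlocks_toBlocks Q).symm
  have h1 : fromBlocks P.toBlocks₁₁ P.toBlocks₁₂ P.toBlocks₂₁ P.toBlocks₂₂ *
      fromBlocks Q.toBlocks₁₁ Q.toBlocks₁₂ Q.toBlocks₂₁ Q.toBlocks₂₂ = 1 := by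
    rw [← hP, ← hQ]; exact h
  rw [Matrix.fromBlocks_multiply, ← Matrix.fromBlocks_one, Matrix.fromBlocks_inj] at h1
  obtain ⟨-, h12, -, h22⟩ := h1
  have key : P * fromBlocks 1 Q.toBlocks₁₂ 0 Q.toBlocks₂₂ =
      fromBlocks P.toBlocks₁₁ 0 P.toBlocks₂₁ 1 := by
    conv_lhs => rw [hP]
    rw [Matrix.fromBlocks_multiply, h12, h22]
    simp
  have hdet := congrArg Matrix.det key
  rw [Matrix.det_mul, Matrix.det_fromBlocks_zero₂₁, Matrix.det_fromBlocks_zero₁₂] at hdet
  simpa using hdet

/-- Pluecker duality, unbundled form: the maximal minors of `A` and the complementary maximal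
minors of `E` agree up to sign and the common nonzero scalar `c`. -/
theorem exists_scalar_minor_eq_or_neg {K : Type*} [Field K] {l d n : ℕ} (hn : l + d = n)
    (A : Matrix (Fin l) (Fin n) K) (E : Matrix (Fin d) (Fin n) K)
    (hA : LinearIndependent K A.row) (hE : LinearIndependent K E.row)
    (hEA : E * A.transpose = 0) :
    ∃ c : K, c ≠ 0 ∧ ∀ (s : Finset (Fin n)) (hs : s.card = l) (hs' : sᶜ.card = d),
      minorVec A ⟨s, hs⟩ = c * minorVec E ⟨sᶜ, hs'⟩ ∨
        minorVec A ⟨s, hs⟩ = -(c * minorVec E ⟨sᶜ, hs'⟩) := by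
  obtain ⟨B, hB⟩ := exists_right_inverse_of_linearIndependent_row A hA
  obtain ⟨F, hF⟩ := exists_right_inverse_of_linearIndependent_row E hE
  have hAE : A * Eᵀ = 0 := by
    have := congrArg Matrix.transpose hEA
    simpa [Matrix.transpose_mul] using this
  have hFE : Fᵀ * Eᵀ = 1 := by rw [← Matrix.transpose_mul, hF, Matrix.transpose_one]
  have hPQ : Matrix.fromRows A Fᵀ * Matrix.fromCols (B - Eᵀ * (Fᵀ * B)) Eᵀ = 1 := by
    rw [Matrix.fromRows_mul_fromCols, ← Matrix.fromBlocks_one]
    congr 1
    · rw [Matrix.mul_sub, hB, ← Matrix.mul_assoc, hAE, Matrix.zero_mul, sub_zero]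
    · rw [Matrix.mul_sub, ← Matrix.mul_assoc, hFE, Matrix.one_mul, sub_self]
  set P : Matrix (Fin l ⊕ Fin d) (Fin n) K := Matrix.fromRows A Fᵀ with hP
  set Q : Matrix (Fin n) (Fin l ⊕ Fin d) K := Matrix.fromCols (B - Eᵀ * (Fᵀ * B)) Eᵀ with hQ
  let e₀ : Fin l ⊕ Fin d ≃ Fin n := finSumFinEquiv.trans (finCongr hn)
  have hsq : ∀ e : Fin l ⊕ Fin d ≃ Fin n, P.submatrix id e * Q.submatrix e id = 1 := by
    intro e
    rw [Matrix.submatrix_mul_equiv, hPQ, Matrix.submatrix_id_id]
  refine ⟨(P.submatrix id e₀).det, ?_, ?_⟩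
  · intro h0
    have := congrArg Matrix.det (hsq e₀)
    rw [Matrix.det_mul, h0, zero_mul, Matrix.det_one] at this
    exact zero_ne_one this
  · intro s hs hs'
    have hJ := det_mul_det_toBlocks₂₂_of_mul_eq_one _ _ (hsq (finSumEquivOfFinset hs hs'))
    have h11 : (P.submatrix id (finSumEquivOfFinset hs hs')).toBlocks₁₁ =
        A.submatrix id (s.orderEmbOfFin hs) := by
      ext i j; simp [P, Matrix.toBlocks₁₁]
    have h22 : (Q.submatrix (finSumEquivOfFinset hs hs') id).toBlocks₂₂ =
        (E.submatrix id (sᶜ.orderEmbOfFin hs'))ᵀ := by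
      ext i j; simp [Q, Matrix.toBlocks₂₂]
    have hperm : P.submatrix id (finSumEquivOfFinset hs hs') =
        (P.submatrix id e₀).submatrix id ((finSumEquivOfFinset hs hs').trans e₀.symm) := by
      ext i j; simp
    rw [h11, h22, Matrix.det_transpose, hperm, Matrix.det_permute'] at hJ
    rcases Int.units_eq_one_or
      (Equiv.Perm.sign ((finSumEquivOfFinset hs hs').trans e₀.symm)) with h | h
    · left; rw [h] at hJ; simpa [minorVec] using hJ.symm
    · right; rw [h] at hJ; simpa [minorVec] using hJ.symm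

end Jacobi

/-- **Pluecker duality** (row 683, first statement). -/
theorem pluckerDuality : PluckerDualityStatement := by
  intro K _ l d n hn A E hA hE hEA
  obtain ⟨c, hc, h⟩ := exists_scalar_minor_eq_or_neg hn A E hA hE hEA
  refine ⟨c, hc, ?_⟩
  rintro ⟨s, hs⟩ ⟨s', hs'⟩ hss'
  simp only at hss'
  subst hss'
  exact h s hs hs'

section Height

open Height

/-- The multiplicative height only sees the coordinates up to sign. -/
theorem mulHeight_eq_of_eq_or_eq_neg {K : Type*} [Field K] [AdmissibleAbsValues K] {ι : Type*}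
    (x y : ι → K) (h : ∀ i, x i = y i ∨ x i = -y i) : mulHeight x = mulHeight y := by
  have hv : ∀ (v : AbsoluteValue K ℝ) (i : ι), v (x i) = v (y i) := by
    intro v i
    rcases h i with h | h <;> simp [h]
  have h0 : x = 0 ↔ y = 0 := by
    constructor
    · intro hx
      funext i
      rcases h i with h | h
      · rw [← h, hx]
      · have : x i = 0 := by rw [hx]; rfl
        rw [this] at h
        simpa using h.symm
    · intro hy
      funext i
      rcases h i with h | h
      · rw [h, hy]
      · rw [h, hy]; simp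
  by_cases hx : x = 0
  · rw [hx, h0.mp hx]
  · have hy : y ≠ 0 := fun hy => hx (h0.mpr hy)
    rw [mulHeight_eq hx, mulHeight_eq hy]
    simp only [hv]

/-- The logarithmic height only sees the coordinates up to sign. -/
theorem logHeight_eq_of_eq_or_eq_neg {K : Type*} [Field K] [AdmissibleAbsValues K] {ι : Type*}
    (x y : ι → K) (h : ∀ i, x i = y i ∨ x i = -y i) : logHeight x = logHeight y := by
  rw [logHeight_eq_log_mulHeight, logHeight_eq_log_mulHeight, mulHeight_eq_of_eq_or_eq_neg x y h]

/-- Complementation as an equivalence between the `l`-subsets and the `d`-subsets of `Fin n`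
when `l + d = n`. -/
def complEquiv {l d n : ℕ} (hn : l + d = n) :
    {s : Finset (Fin n) // s.card = l} ≃ {s : Finset (Fin n) // s.card = d} where
  toFun s := ⟨s.1ᶜ, by rw [Finset.card_compl, s.2, Fintype.card_fin]; omega⟩
  invFun s := ⟨s.1ᶜ, by rw [Finset.card_compl, s.2, Fintype.card_fin]; omega⟩
  left_inv s := by simp
  right_inv s := by simp

/-- Height form of Pluecker duality over any field with admissible absolute values. -/
theorem logHeight_minorVec_eq {K : Type} [Field K] [AdmissibleAbsValues K] {l d n : ℕ}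
    (hn : l + d = n) (A : Matrix (Fin l) (Fin n) K) (E : Matrix (Fin d) (Fin n) K)
    (hA : LinearIndependent K A.row) (hE : LinearIndependent K E.row)
    (hEA : E * A.transpose = 0) :
    logHeight (minorVec A) = logHeight (minorVec E) := by
  obtain ⟨c, hc, h⟩ := pluckerDuality K l d n hn A E hA hE hEA
  calc logHeight (minorVec A)
      = logHeight (c • (minorVec E ∘ complEquiv hn)) :=
        logHeight_eq_of_eq_or_eq_neg _ _ (fun s => h s (complEquiv hn s) rfl)
    _ = logHeight (minorVec E ∘ complEquiv hn) := logHeight_smul_eq_logHeight _ hc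
    _ = logHeight (minorVec E) := logHeight_comp_equiv _ _

/-- **Height form of Pluecker duality over `ℚ`** (row 683, second statement). -/
theorem pluckerDualityHeight : PluckerDualityHeightStatement := by
  intro l d n hn A E hA hE hEA
  exact logHeight_minorVec_eq hn A E hA hE hEA

end Height

end Fermat.Agent.H33.MW
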